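import Mathlib

/-!
# Program V (S27): an algebraic closure of `𝔽_p` in every universe (prefix `v27u`)

`v27fo_transfer` / `V27Def.transfer` want, for each prime `p`, an algebraically closed field of
characteristic `p` IN THE UNIVERSE of the characteristic-zero field `K`; Part A (`v27A_main`) wants
`[IsAlgClosed k] [CharP k p] [Algebra (ZMod p) k] [Algebra.IsAlgebraic (ZMod p) k]`.
`ULift.{u} (AlgebraicClosure (ZMod p))` has all of them.
-/

set_option autoImplicit false

universe u

namespace Fermat.Agent.V

/-- an algebraic closure of `ZMod p` in the universe `u` -/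
abbrev V27uFpBar (p : ℕ) [Fact p.Prime] : Type u := ULift.{u} (AlgebraicClosure (ZMod p))

instance v27u_isAlgClosed (p : ℕ) [Fact p.Prime] : IsAlgClosed (V27uFpBar.{u} p) := by
  apply IsAlgClosed.of_exists_root
  intro q _ hirr
  let e : V27uFpBar.{u} p ≃+* AlgebraicClosure (ZMod p) := ULift.ringEquiv
  have hdeg : (q.map e.toRingHom).degree ≠ 0 := by
    rw [Polynomial.degree_map]
    exact ne_of_gt (Polynomial.degree_pos_of_irreducible hirr)
  obtain ⟨x, hx⟩ := IsAlgClosed.exists_root (q.map e.toRingHom) hdeg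
  refine ⟨e.symm x, ?_⟩
  apply e.injective
  rw [map_zero]
  have h1 : e (q.eval (e.symm x)) = q.eval₂ e.toRingHom x := by
    rw [← Polynomial.eval₂_id]
    show e.toRingHom (Polynomial.eval₂ (RingHom.id _) (e.symm x) q) = _
    rw [Polynomial.hom_eval₂]
    simp
  rw [h1, ← Polynomial.eval_map]
  exact hx

instance v27u_isAlgebraic (p : ℕ) [Fact p.Prime] :
    Algebra.IsAlgebraic (ZMod p) (V27uFpBar.{u} p) := by
  refine ⟨fun x => ?_⟩
  obtain ⟨P, hP0, hP⟩ := Algebra.IsAlgebraic.isAlgebraic (R := ZMod p) x.down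
  refine ⟨P, hP0, ?_⟩
  have h1 : (Polynomial.aeval x P).down = Polynomial.aeval x.down P := by
    have h2 := Polynomial.aeval_algHom_apply
      (ULift.algEquiv (R := ZMod p) (A := AlgebraicClosure (ZMod p))).toAlgHom x P
    exact h2.symm
  apply ULift.ext
  rw [h1, hP]
  rfl

/-- the package consumed by the Lefschetz transfer -/
theorem v27u_exists_algClosed (p : ℕ) [Fact p.Prime] :
    ∃ (k : Type u) (_ : Field k) (_ : IsAlgClosed k) (_ : CharP k p) (_ : Algebra (ZMod p) k),
      Algebra.IsAlgebraic (ZMod p) k :=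
  ⟨V27uFpBar.{u} p, inferInstance, inferInstance, inferInstance, inferInstance, inferInstance⟩

end Fermat.Agent.V
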